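/-
S41 / PAIR, leaf PAIR-CONJ (helper60): **conjugation invariance of the integral pairing**.

If `θ : Γ₁ ≃* Γ₂` is induced by an integer matrix `D` of positive determinant
(`D γ = θ(γ) D`), then `pairZ Γ₁ (φ ∘ θ) (ψ ∘ θ) = pairZ Γ₂ φ ψ` for parabolic `φ, ψ : Γ₂ → ℤ`.

Everything is built on landed files:
* `H33.sum_kappa_eq_pairZ`, `H33.exists_kappa` (uniform intrinsic characterisation of `pairZ`);
* `H62.isCuspSystem_orbit`, `IsCuspSystem.exists_equiv`, `IsCuspSystem.map_of_intertwine`;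
* `H99.exists_isOrbDecomp`, `IsKappa.conj`, `IsKappa.pow`, `pairOf_congr_conjFam`.

Exports:
* `pairOf_conj`            : the `κ`-form of CONJ for arbitrary cusp systems;
* `exists_orbitCuspSystem` : every `Γ` of finite index containing `-1` has a finite cusp system
                             `c` with `∑_x κ((rep x)⁻¹ T^m rep x) = m ∑_j κ(c j)`   ((CS));
* `trace_eq_of_intertwine`, `isParabolicHom_of_intertwine`;
* `pairZ_conj`, `pairZ_conj_comp`.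
-/
import Mathlib
import Fermat.Agent.S41.H33.Pairing
import Fermat.Agent.S41.H62.CuspSystem
import Fermat.Agent.S41.H99.KappaPair

set_option autoImplicit false

open scoped MatrixGroups
open ModularGroup ModularCurve.Period
open Fermat.Agent.S16.H97

noncomputable section

namespace Fermat.Agent.S41.H60

open Fermat.Agent.S41.H62 Fermat.Agent.S41.H99

/-! ### CONJ in `κ`-form -/

/-- **CONJ, `κ`-form.**  For an isomorphism `θ : Γ₁ ≃* Γ₂` induced by an integer matrix of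
positive determinant, cusp systems `c₁`, `c₂` of `Γ₁`, `Γ₂`, and a primitive `κ` on `Γ₂`:
`∑_j κ(θ(c₁ j)) = ∑_j κ(c₂ j)`. -/
theorem pairOf_conj {Γ₁ Γ₂ : Subgroup SL(2, ℤ)} (θ : Γ₁ ≃* Γ₂)
    {D : Matrix (Fin 2) (Fin 2) ℤ} (hD : 0 < D.det)
    (H : ∀ γ : Γ₁, D * ((γ : SL(2, ℤ)) : Matrix (Fin 2) (Fin 2) ℤ)
      = ((θ γ : SL(2, ℤ)) : Matrix (Fin 2) (Fin 2) ℤ) * D)
    {J₁ J₂ : Type*} [Fintype J₁] [Fintype J₂] {c₁ : J₁ → Γ₁} {c₂ : J₂ → Γ₂}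
    (h₁ : IsCuspSystem Γ₁ (fun j => (c₁ j : SL(2, ℤ))))
    (h₂ : IsCuspSystem Γ₂ (fun j => (c₂ j : SL(2, ℤ))))
    {A : Type*} [CommRing A] {f f' κ : Γ₂ → A} (hκ : IsKappa f f' κ) (hf : IsAddFn f)
    (hf' : IsAddFn f') (h0 : ∀ j, f (c₂ j) = 0) (h0' : ∀ j, f' (c₂ j) = 0) :
    pairOf (fun g : Γ₁ => κ (θ g)) c₁ = pairOf κ c₂ := by
  have hmap := h₁.map_of_intertwine θ hD H
  obtain ⟨σ, hσ⟩ := h₂.exists_equiv hmap
  have hconj : ConjFam c₂ (fun j => θ (c₁ j)) := by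
    refine ⟨σ, fun j => ?_⟩
    obtain ⟨s, hs, h⟩ := hσ j
    exact ⟨⟨s, hs⟩, Subtype.ext h⟩
  have e := pairOf_congr_conjFam hκ hf hf' hconj h0 h0'
  exact e

variable {Γ : Subgroup SL(2, ℤ)}

/-! ### Orbits of `T` on the cosets -/

theorem iterate_toPerm (g : SL(2, ℤ)) (a : ℕ) (x : Cos Γ) :
    (⇑(MulAction.toPerm g : Equiv.Perm (Cos Γ)))^[a] x = g ^ a • x := by
  rw [Equiv.Perm.iterate_eq_pow, Fermat.Agent.S41.H33.toPerm_pow_apply]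

theorem smul_eq_of_conj_mem {g : SL(2, ℤ)} {x : Cos Γ} (h : (rep Γ x)⁻¹ * g * rep Γ x ∈ Γ) :
    g • x = x := by
  have := smul_base_of_mem h
  rw [mul_smul, mul_smul, rep_smul_base, inv_smul_eq_iff, rep_smul_base] at this
  exact this

theorem pow_smul_of_smul {g : SL(2, ℤ)} {x : Cos Γ} (h : g • x = x) (k : ℕ) : g ^ k • x = x := by
  induction k with
  | zero => simp
  | succ n ih => rw [pow_succ, mul_smul, h, ih]

theorem zpow_smul_of_smul {g : SL(2, ℤ)} {x : Cos Γ} (h : g • x = x) (k : ℤ) : g ^ k • x = x := by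
  have hg : g ∈ MulAction.stabilizer SL(2, ℤ) x := h
  exact (MulAction.stabilizer SL(2, ℤ) x).zpow_mem hg k

theorem pow_smul_mod {x : Cos Γ} {e : ℕ} (he : T ^ e • x = x) (m : ℕ) :
    T ^ m • x = T ^ (m % e) • x := by
  conv_lhs => rw [← Nat.mod_add_div m e, pow_add, pow_mul, mul_smul, pow_smul_of_smul he]

theorem zpow_smul_emod {x : Cos Γ} {e : ℕ} (he0 : 0 < e) (he : T ^ e • x = x) (k : ℤ) :
    T ^ k • x = T ^ (k % (e : ℤ)).toNat • x := by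
  have h1 : (0 : ℤ) ≤ k % (e : ℤ) := Int.emod_nonneg k (by exact_mod_cast he0.ne')
  have h2 : T ^ (k % (e : ℤ)).toNat = T ^ (k % (e : ℤ)) := by
    rw [← zpow_natCast, Int.toNat_of_nonneg h1]
  have h3 : T ^ k = T ^ (k % (e : ℤ)) * (T ^ e) ^ (k / (e : ℤ)) := by
    conv_lhs => rw [← Int.emod_add_mul_ediv k (e : ℤ), zpow_add, zpow_mul, zpow_natCast]
  rw [h2, h3, mul_smul, zpow_smul_of_smul he]

theorem isOrbDecomp_inj {ι D : Type*} {σ : ι → ι} {r : D → ι} {e : D → ℕ}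
    (h : IsOrbDecomp σ r e) {d d' : D} {a a' : ℕ} (ha : a < e d) (ha' : a' < e d')
    (heq : σ^[a] (r d) = σ^[a'] (r d')) : d = d' ∧ a = a' := by
  have := h.bij.1 (a₁ := ⟨d, ⟨a, ha⟩⟩) (a₂ := ⟨d', ⟨a', ha'⟩⟩) heq
  exact ⟨congrArg Sigma.fst this, congrArg (fun p : (d : D) × Fin (e d) => (p.2 : ℕ)) this⟩

theorem conj_T_pow_comm (a m : ℕ) : ((T : SL(2, ℤ)) ^ a)⁻¹ * T ^ m * T ^ a = T ^ m := by
  rw [mul_assoc, ← pow_add, add_comm, pow_add, inv_mul_cancel_left]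

/-! ### The orbit cusp system and the identity (CS) -/

/-- **Orbit cusp system with (CS).**  Every `Γ` with `-1 ∈ Γ` and finitely many cosets has a
finite cusp system `c` (of orbit type) such that for every primitive `κ` of a cup product of
functions killing the elements of trace `2`, and every period `m` of `T` on the cosets,
`∑_x κ((rep x)⁻¹ T^m rep x) = m ∑_j κ(c j)`. -/
theorem exists_orbitCuspSystem (hneg : (-1 : SL(2, ℤ)) ∈ Γ) [Fintype (Cos Γ)] :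
    ∃ (J : Type) (_ : Fintype J) (c : J → Γ),
      IsCuspSystem Γ (fun j => (c j : SL(2, ℤ))) ∧
      (∀ j, ((c j : SL(2, ℤ)) : Matrix (Fin 2) (Fin 2) ℤ).trace = 2) ∧
      ∀ (f f' κ : Γ → ℤ), IsKappa f f' κ → IsAddFn f → IsAddFn f' →
        (∀ γ : Γ, ((γ : SL(2, ℤ)) : Matrix (Fin 2) (Fin 2) ℤ).trace = 2 → f γ = 0) →
        (∀ γ : Γ, ((γ : SL(2, ℤ)) : Matrix (Fin 2) (Fin 2) ℤ).trace = 2 → f' γ = 0) →
        ∀ (m : ℕ) (hm : ∀ x : Cos Γ, T ^ m • x = x),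
          ∑ x : Cos Γ, κ ⟨(rep Γ x)⁻¹ * T ^ m * rep Γ x,
            Fermat.Agent.S41.H33.conj_mem_of_smul_eq (T ^ m) x (hm x)⟩ = m * ∑ j, κ (c j) := by
  classical
  obtain ⟨J, hJ, r, e, hdec⟩ := exists_isOrbDecomp (MulAction.toPerm T : Equiv.Perm (Cos Γ))
  have hclosed : ∀ d, T ^ e d • r d = r d := fun d => by
    rw [← iterate_toPerm]
    exact hdec.closed d
  have hmin : ∀ d (k : ℕ), 0 < k → T ^ k • r d = r d → e d ≤ k := by
    intro d k hk hfix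
    by_contra hlt
    have hlt := Nat.lt_of_not_le hlt
    have h1 : (⇑(MulAction.toPerm T : Equiv.Perm (Cos Γ)))^[k] (r d) =
        (⇑(MulAction.toPerm T : Equiv.Perm (Cos Γ)))^[0] (r d) := by
      rw [iterate_toPerm, hfix]
      rfl
    have := (isOrbDecomp_inj hdec hlt (hdec.pos d) h1).2
    omega
  have hmem : ∀ d, (rep Γ (r d))⁻¹ * T ^ e d * rep Γ (r d) ∈ Γ := fun d =>
    Fermat.Agent.S41.H33.conj_mem_of_smul_eq (T ^ e d) (r d) (hclosed d)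
  refine ⟨J, hJ, fun d => ⟨(rep Γ (r d))⁻¹ * T ^ e d * rep Γ (r d), hmem d⟩, ?_, ?_, ?_⟩
  · -- cusp system
    refine isCuspSystem_orbit hneg (fun d => rep Γ (r d)) e
      (fun d => ⟨hdec.pos d, hmem d, fun k hk hkm => hmin d k hk (smul_eq_of_conj_mem hkm)⟩) ?_ ?_
    · intro g
      obtain ⟨⟨d, a⟩, hda⟩ := hdec.bij.2 (g • base Γ)
      have hda' : T ^ (a : ℕ) • r d = g • base Γ := by
        rw [← iterate_toPerm]
        exact hda
      refine ⟨d, (a : ℕ), (T ^ (a : ℕ) * rep Γ (r d))⁻¹ * g, ?_, ?_⟩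
      · apply mem_of_smul_base
        rw [mul_smul, ← hda', inv_smul_eq_iff, mul_smul, rep_smul_base]
      · rw [zpow_natCast]
        group
    · rintro j j' ⟨k, s, hs, hk⟩
      have h1 : r j' = T ^ k • r j := by
        have := congrArg (fun g : SL(2, ℤ) => g • base Γ) hk
        simp only [rep_smul_base, mul_smul, smul_base_of_mem hs] at this
        exact this
      rw [zpow_smul_emod (hdec.pos j) (hclosed j) k] at h1
      have hlt : (k % (e j : ℤ)).toNat < e j := by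
        have h2 : k % (e j : ℤ) < (e j : ℤ) :=
          Int.emod_lt_of_pos k (by exact_mod_cast hdec.pos j)
        have h3 : (0 : ℤ) ≤ k % (e j : ℤ) :=
          Int.emod_nonneg k (by exact_mod_cast (hdec.pos j).ne')
        omega
      have h4 : (⇑(MulAction.toPerm T : Equiv.Perm (Cos Γ)))^[(k % (e j : ℤ)).toNat] (r j) =
          (⇑(MulAction.toPerm T : Equiv.Perm (Cos Γ)))^[0] (r j') := by
        rw [iterate_toPerm, ← h1]
        rfl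
      exact (isOrbDecomp_inj hdec hlt (hdec.pos j') h4).1
  · intro d
    exact Fermat.Agent.S41.H33.trace_conj_T_pow (rep Γ (r d)) (e d)
  · intro f f' κ hκ hf hf' h0 h0' m hm
    rw [hdec.sum_eq (fun x => κ ⟨(rep Γ x)⁻¹ * T ^ m * rep Γ x,
      Fermat.Agent.S41.H33.conj_mem_of_smul_eq (T ^ m) x (hm x)⟩), Finset.mul_sum]
    refine Finset.sum_congr rfl fun d _ => ?_
    -- the orbit length divides the period
    have hdiv : e d ∣ m := by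
      apply Nat.dvd_of_mod_eq_zero
      by_contra hne
      have h1 : T ^ (m % e d) • r d = r d := by
        rw [← pow_smul_mod (hclosed d) m]
        exact hm (r d)
      have := hmin d (m % e d) (Nat.pos_of_ne_zero hne) h1
      have := Nat.mod_lt m (hdec.pos d)
      omega
    obtain ⟨q, hq⟩ := hdiv
    set π : Γ := ⟨(rep Γ (r d))⁻¹ * T ^ e d * rep Γ (r d), hmem d⟩ with hπ
    have hπtr : ((π : SL(2, ℤ)) : Matrix (Fin 2) (Fin 2) ℤ).trace = 2 :=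
      Fermat.Agent.S41.H33.trace_conj_T_pow (rep Γ (r d)) (e d)
    have key : ∀ a : ℕ, κ ⟨(rep Γ ((⇑(MulAction.toPerm T : Equiv.Perm (Cos Γ)))^[a] (r d)))⁻¹ *
        T ^ m * rep Γ ((⇑(MulAction.toPerm T : Equiv.Perm (Cos Γ)))^[a] (r d)),
        Fermat.Agent.S41.H33.conj_mem_of_smul_eq (T ^ m) _ (hm _)⟩ = q * κ π := by
      intro a
      have hx : (⇑(MulAction.toPerm T : Equiv.Perm (Cos Γ)))^[a] (r d) = T ^ a • r d :=
        iterate_toPerm T a (r d)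
      generalize (⇑(MulAction.toPerm T : Equiv.Perm (Cos Γ)))^[a] (r d) = x at hx ⊢
      -- `rep x = T^a * rep (r d) * s` with `s ∈ Γ`
      have hs : (T ^ a * rep Γ (r d))⁻¹ * rep Γ x ∈ Γ := by
        apply mem_of_smul_base
        rw [mul_smul, rep_smul_base, hx, inv_smul_eq_iff, mul_smul, rep_smul_base]
      have hval : (rep Γ x)⁻¹ * T ^ m * rep Γ x =
          ((T ^ a * rep Γ (r d))⁻¹ * rep Γ x)⁻¹ *
            ((rep Γ (r d))⁻¹ * T ^ e d * rep Γ (r d)) ^ q *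
            ((T ^ a * rep Γ (r d))⁻¹ * rep Γ x) := by
        rw [Fermat.Agent.S41.H33.conj_pow_eq, ← pow_mul, ← hq]
        have h1 := conj_T_pow_comm a m
        have h2 : (rep Γ x)⁻¹ * T ^ m * rep Γ x =
            (rep Γ x)⁻¹ * (T ^ a * rep Γ (r d)) * ((rep Γ (r d))⁻¹ *
              ((T ^ a)⁻¹ * T ^ m * T ^ a) * rep Γ (r d)) *
              ((T ^ a * rep Γ (r d))⁻¹ * rep Γ x) := by
          group
        rw [h2, h1]
        group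
      have hsub : (⟨(rep Γ x)⁻¹ * T ^ m * rep Γ x,
          Fermat.Agent.S41.H33.conj_mem_of_smul_eq (T ^ m) x (hm x)⟩ : Γ) =
          (⟨_, hs⟩ : Γ)⁻¹ * π ^ q * ((⟨_, hs⟩ : Γ)⁻¹)⁻¹ := by
        rw [inv_inv]
        exact Subtype.ext hval
      have hfπ : f π = 0 := h0 π hπtr
      have hfπ' : f' π = 0 := h0' π hπtr
      have hfq : f (π ^ q) = 0 := by rw [hf.pow, hfπ, mul_zero]
      have hfq' : f' (π ^ q) = 0 := by rw [hf'.pow, hfπ', mul_zero]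
      rw [hsub, hκ.conj hf hf' _ hfq hfq', hκ.pow hf (by rw [hfπ, zero_mul]) q]
    rw [Finset.sum_congr rfl fun a _ => key a, Finset.sum_const, Finset.card_range,
      nsmul_eq_mul, hq]
    push_cast
    ring

/-! ### Isomorphisms induced by an integer matrix preserve the trace -/

theorem trace_eq_of_intertwine {D g g' : Matrix (Fin 2) (Fin 2) ℤ} (hD : D.det ≠ 0)
    (H : D * g = g' * D) : g.trace = g'.trace := by
  have h1 : (D.det • g').trace = (D.det • g).trace := by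
    have e1 : D.det • g' = g' * D * D.adjugate := by
      rw [mul_assoc, Matrix.mul_adjugate, Matrix.mul_smul, mul_one]
    have e2 : D.det • g = D.adjugate * (D * g) := by
      rw [← mul_assoc, Matrix.adjugate_mul, Matrix.smul_mul, one_mul]
    rw [e1, e2, ← H, Matrix.trace_mul_comm]
  rw [Matrix.trace_smul, Matrix.trace_smul, smul_eq_mul, smul_eq_mul] at h1
  exact (mul_left_cancel₀ hD h1).symm

/-- The pull-back of a parabolic homomorphism along an isomorphism induced by an integer matrix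
of nonzero determinant is parabolic. -/
theorem isParabolicHom_of_intertwine {Γ₁ Γ₂ : Subgroup SL(2, ℤ)} (θ : Γ₁ ≃* Γ₂)
    {D : Matrix (Fin 2) (Fin 2) ℤ} (hD : D.det ≠ 0)
    (H : ∀ γ : Γ₁, D * ((γ : SL(2, ℤ)) : Matrix (Fin 2) (Fin 2) ℤ)
      = ((θ γ : SL(2, ℤ)) : Matrix (Fin 2) (Fin 2) ℤ) * D)
    {A : Type*} [AddCommGroup A] {φ : Additive Γ₂ →+ A} (hφ : IsParabolicHom Γ₂ φ)
    {φ₁ : Additive Γ₁ →+ A} (h : ∀ γ : Γ₁, φ₁ (Additive.ofMul γ) = φ (Additive.ofMul (θ γ))) :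
    IsParabolicHom Γ₁ φ₁ := by
  intro γ hγ
  rw [h γ]
  apply hφ
  rw [← trace_eq_of_intertwine hD (H γ)]
  exact hγ

/-! ### CONJ for `pairZ` -/

theorem pow_mul_smul_of_smul {g : SL(2, ℤ)} {m : ℕ} (h : ∀ x : Cos Γ, g ^ m • x = x) (k : ℕ)
    (x : Cos Γ) : g ^ (m * k) • x = x := by
  rw [pow_mul]
  exact pow_smul_of_smul (h x) k

/-- **PAIR-CONJ.**  An isomorphism `θ : Γ₁ ≃* Γ₂` induced by an integer matrix `D` of positive
determinant (`D γ = θ(γ) D`) is an isometry for the integral pairings. -/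
theorem pairZ_conj {Γ₁ Γ₂ : Subgroup SL(2, ℤ)} [Fintype (Cos Γ₁)] [Fintype (Cos Γ₂)]
    (hneg₁ : (-1 : SL(2, ℤ)) ∈ Γ₁) (hneg₂ : (-1 : SL(2, ℤ)) ∈ Γ₂) (θ : Γ₁ ≃* Γ₂)
    {D : Matrix (Fin 2) (Fin 2) ℤ} (hD : 0 < D.det)
    (H : ∀ γ : Γ₁, D * ((γ : SL(2, ℤ)) : Matrix (Fin 2) (Fin 2) ℤ)
      = ((θ γ : SL(2, ℤ)) : Matrix (Fin 2) (Fin 2) ℤ) * D)
    {φ ψ : Additive Γ₂ →+ ℤ} (hφ : IsParabolicHom Γ₂ φ) (hψ : IsParabolicHom Γ₂ ψ)
    {φ₁ ψ₁ : Additive Γ₁ →+ ℤ}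
    (hφ₁ : ∀ γ : Γ₁, φ₁ (Additive.ofMul γ) = φ (Additive.ofMul (θ γ)))
    (hψ₁ : ∀ γ : Γ₁, ψ₁ (Additive.ofMul γ) = ψ (Additive.ofMul (θ γ))) :
    Fermat.Agent.S41.H33.pairZ Γ₁ φ₁ ψ₁ = Fermat.Agent.S41.H33.pairZ Γ₂ φ ψ := by
  have hpφ₁ : IsParabolicHom Γ₁ φ₁ := isParabolicHom_of_intertwine θ hD.ne' H hφ hφ₁
  have hpψ₁ : IsParabolicHom Γ₁ ψ₁ := isParabolicHom_of_intertwine θ hD.ne' H hψ hψ₁
  obtain ⟨κ₂, hκ₂⟩ := Fermat.Agent.S41.H33.exists_kappa hneg₂ hφ hψ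
  have hκ₁ : ∀ γ γ' : Γ₁, κ₂ (θ (γ * γ')) = κ₂ (θ γ) + κ₂ (θ γ') +
      ψ₁ (Additive.ofMul γ) * φ₁ (Additive.ofMul γ') := by
    intro γ γ'
    rw [map_mul, hκ₂, hψ₁, hφ₁]
  obtain ⟨m₁, hm₁0, hm₁⟩ := Fermat.Agent.S41.H33.exists_period_T (Γ := Γ₁)
  obtain ⟨m₂, hm₂0, hm₂⟩ := Fermat.Agent.S41.H33.exists_period_T (Γ := Γ₂)
  have hM₁ : ∀ x : Cos Γ₁, T ^ (m₁ * m₂) • x = x := pow_mul_smul_of_smul hm₁ m₂
  have hM₂ : ∀ x : Cos Γ₂, T ^ (m₁ * m₂) • x = x := by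
    rw [mul_comm]
    exact pow_mul_smul_of_smul hm₂ m₁
  have e1 := Fermat.Agent.S41.H33.sum_kappa_eq_pairZ hneg₁ hpφ₁ hpψ₁ (fun γ => κ₂ (θ γ)) hκ₁
    (m₁ * m₂) hM₁
  have e2 := Fermat.Agent.S41.H33.sum_kappa_eq_pairZ hneg₂ hφ hψ κ₂ hκ₂ (m₁ * m₂) hM₂
  obtain ⟨J₁, hJ₁, c₁, hc₁, htr₁, hcs₁⟩ := exists_orbitCuspSystem hneg₁
  obtain ⟨J₂, hJ₂, c₂, hc₂, htr₂, hcs₂⟩ := exists_orbitCuspSystem hneg₂
  have par : ∀ {Γ' : Subgroup SL(2, ℤ)} {χ : Additive Γ' →+ ℤ}, IsParabolicHom Γ' χ →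
      ∀ γ : Γ', ((γ : SL(2, ℤ)) : Matrix (Fin 2) (Fin 2) ℤ).trace = 2 →
        χ (Additive.ofMul γ) = 0 := by
    intro Γ' χ hχ γ hγ
    apply hχ
    rw [hγ]
    norm_num
  have f1 := hcs₁ (fun γ => ψ₁ (Additive.ofMul γ)) (fun γ => φ₁ (Additive.ofMul γ))
    (fun γ => κ₂ (θ γ)) hκ₁ (IsAddFn.of_addMonoidHom ψ₁) (IsAddFn.of_addMonoidHom φ₁)
    (par hpψ₁) (par hpφ₁) (m₁ * m₂) hM₁
  have f2 := hcs₂ (fun γ => ψ (Additive.ofMul γ)) (fun γ => φ (Additive.ofMul γ)) κ₂ hκ₂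
    (IsAddFn.of_addMonoidHom ψ) (IsAddFn.of_addMonoidHom φ) (par hψ) (par hφ) (m₁ * m₂) hM₂
  have f3 : pairOf (fun g : Γ₁ => κ₂ (θ g)) c₁ = pairOf κ₂ c₂ :=
    pairOf_conj θ hD H hc₁ hc₂ (f := fun γ => ψ (Additive.ofMul γ))
      (f' := fun γ => φ (Additive.ofMul γ)) hκ₂ (IsAddFn.of_addMonoidHom ψ)
      (IsAddFn.of_addMonoidHom φ) (fun j => par hψ (c₂ j) (htr₂ j))
      (fun j => par hφ (c₂ j) (htr₂ j))
  have f3' : ∑ j, κ₂ (θ (c₁ j)) = ∑ j, κ₂ (c₂ j) := by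
    have := f3
    simp only [pairOf, neg_inj] at this
    exact this
  have hm : ((m₁ * m₂ : ℕ) : ℤ) ≠ 0 := by
    exact_mod_cast (Nat.mul_pos hm₁0 hm₂0).ne'
  apply mul_left_cancel₀ hm
  rw [← e1, ← e2, f1, f2, f3']

/-- **PAIR-CONJ**, composition form. -/
theorem pairZ_conj_comp {Γ₁ Γ₂ : Subgroup SL(2, ℤ)} [Fintype (Cos Γ₁)] [Fintype (Cos Γ₂)]
    (hneg₁ : (-1 : SL(2, ℤ)) ∈ Γ₁) (hneg₂ : (-1 : SL(2, ℤ)) ∈ Γ₂) (θ : Γ₁ ≃* Γ₂)
    {D : Matrix (Fin 2) (Fin 2) ℤ} (hD : 0 < D.det)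
    (H : ∀ γ : Γ₁, D * ((γ : SL(2, ℤ)) : Matrix (Fin 2) (Fin 2) ℤ)
      = ((θ γ : SL(2, ℤ)) : Matrix (Fin 2) (Fin 2) ℤ) * D)
    {φ ψ : Additive Γ₂ →+ ℤ} (hφ : IsParabolicHom Γ₂ φ) (hψ : IsParabolicHom Γ₂ ψ) :
    Fermat.Agent.S41.H33.pairZ Γ₁ (φ.comp (MonoidHom.toAdditive θ.toMonoidHom))
      (ψ.comp (MonoidHom.toAdditive θ.toMonoidHom)) = Fermat.Agent.S41.H33.pairZ Γ₂ φ ψ :=
  pairZ_conj hneg₁ hneg₂ θ hD H hφ hψ (fun _ => rfl) (fun _ => rfl)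

end Fermat.Agent.S41.H60
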